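import Fermat.Agent.CFT.HerbrandExact

/-!
# Herbrand quotients: finite groups, cyclic actions, trivial and induced modules

* `hIdx_eq_of_finite`, `hq_eq_one_of_finite` : a finite group has Herbrand quotient `1`.
* `dOp σ = 1 - σ`, `nOp σ n = ∑ i < n, σ ^ i` for `σ : AddMonoid.End M`; if `σ ^ n = 1` they
  compose to zero in both orders.
* `hIdx_dOp_int`, `hIdx_nOp_int`, `hq_int` : `ℤ` with trivial action has Herbrand quotient `n`.
* `hIdx_dOp_induced`, `hIdx_nOp_induced` : the induced module `ZMod n → X` (shift action) has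
  both indices equal to `1`.
-/

namespace Fermat.Agent.CFT.H8

open AddSubgroup Finset

section Finite

variable {M : Type*} [AddCommGroup M]

theorem card_range_mul_hIdx (f g : M →+ M) (hfg : ∀ x, f (g x) = 0) :
    Nat.card g.range * hIdx f g = Nat.card f.ker := by
  have h := relIndex_mul_relIndex (⊥ : AddSubgroup M) g.range f.ker bot_le (range_le_ker hfg)
  rwa [relIndex_bot_left, relIndex_bot_left] at h

theorem card_ker_mul_card_range (f : M →+ M) :
    Nat.card f.ker * Nat.card f.range = Nat.card M := by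
  rw [← AddSubgroup.index_ker]
  exact AddSubgroup.card_mul_index f.ker

/-- In a finite group, `[ker f : im g] = [ker g : im f]`. -/
theorem hIdx_eq_of_finite [Finite M] (f g : M →+ M) (hfg : ∀ x, f (g x) = 0)
    (hgf : ∀ x, g (f x) = 0) : hIdx f g = hIdx g f := by
  have h1 := card_range_mul_hIdx f g hfg
  have h2 := card_range_mul_hIdx g f hgf
  have h3 := card_ker_mul_card_range f
  have h4 := card_ker_mul_card_range g
  have hpos1 : 0 < Nat.card g.range := Nat.card_pos
  have hpos2 : 0 < Nat.card f.range := Nat.card_pos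
  have key : Nat.card g.range * Nat.card f.range * hIdx f g =
      Nat.card g.range * Nat.card f.range * hIdx g f := by
    calc Nat.card g.range * Nat.card f.range * hIdx f g
        = (Nat.card g.range * hIdx f g) * Nat.card f.range := by ring
      _ = Nat.card M := by rw [h1, h3]
      _ = (Nat.card f.range * hIdx g f) * Nat.card g.range := by rw [h2, h4]
      _ = Nat.card g.range * Nat.card f.range * hIdx g f := by ring
  exact Nat.eq_of_mul_eq_mul_left (Nat.mul_pos hpos1 hpos2) key

theorem hIdx_ne_zero_of_finite [Finite M] (f g : M →+ M) : hIdx f g ≠ 0 := by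
  unfold hIdx relIndex
  exact AddSubgroup.index_ne_zero_of_finite

theorem hqDefined_of_finite [Finite M] (f g : M →+ M) : HQDefined f g :=
  ⟨hIdx_ne_zero_of_finite f g, hIdx_ne_zero_of_finite g f⟩

/-- A finite group has Herbrand quotient `1`. -/
theorem hq_eq_one_of_finite [Finite M] (f g : M →+ M) (hfg : ∀ x, f (g x) = 0)
    (hgf : ∀ x, g (f x) = 0) : hq f g = 1 := by
  unfold hq
  rw [hIdx_eq_of_finite f g hfg hgf]
  have : (hIdx g f : ℚ) ≠ 0 := by exact_mod_cast hIdx_ne_zero_of_finite g f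
  exact div_self this

end Finite

section Cyclic

variable {M : Type*} [AddCommGroup M]

/-- `D = 1 - σ`. -/
def dOp (σ : AddMonoid.End M) : M →+ M := (1 - σ : AddMonoid.End M)

/-- `N = ∑ i < n, σ ^ i`. -/
def nOp (σ : AddMonoid.End M) (n : ℕ) : M →+ M := (∑ i ∈ range n, σ ^ i : AddMonoid.End M)

theorem dOp_apply (σ : AddMonoid.End M) (x : M) : dOp σ x = x - σ x := rfl

theorem nOp_apply (σ : AddMonoid.End M) (n : ℕ) (x : M) :
    nOp σ n x = ∑ i ∈ range n, (σ ^ i) x := by
  unfold nOp
  induction n with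
  | zero =>
    simp only [Finset.range_zero, Finset.sum_empty]
    rfl
  | succ k ih =>
    rw [Finset.sum_range_succ, Finset.sum_range_succ, ← ih]
    rfl

theorem dOp_nOp (σ : AddMonoid.End M) (n : ℕ) (h : σ ^ n = 1) (x : M) :
    dOp σ (nOp σ n x) = 0 := by
  have := mul_neg_geom_sum σ n
  rw [h, sub_self] at this
  exact congrArg (fun e : AddMonoid.End M => e x) this

theorem nOp_dOp (σ : AddMonoid.End M) (n : ℕ) (h : σ ^ n = 1) (x : M) :
    nOp σ n (dOp σ x) = 0 := by
  have := geom_sum_mul_neg σ n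
  rw [h, sub_self] at this
  exact congrArg (fun e : AddMonoid.End M => e x) this

/-- Herbrand quotient of a `σ`-module with `σ ^ n = 1`:
`|ker (1 - σ) / im N| / |ker N / im (1 - σ)|`. -/
noncomputable def hqCyc (σ : AddMonoid.End M) (n : ℕ) : ℚ := hq (dOp σ) (nOp σ n)

end Cyclic

section Trivial

/-- For the trivial action on `ℤ`: `[ker (1 - σ) : im N] = n`. -/
theorem hIdx_dOp_int (n : ℕ) :
    hIdx (dOp (1 : AddMonoid.End ℤ)) (nOp (1 : AddMonoid.End ℤ) n) = n := by
  have hD : (dOp (1 : AddMonoid.End ℤ)).ker = ⊤ := by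
    ext x
    simp [dOp_apply, AddMonoidHom.mem_ker]
  have hN : (nOp (1 : AddMonoid.End ℤ) n).range = AddSubgroup.zmultiples (n : ℤ) := by
    ext x
    rw [AddMonoidHom.mem_range, Int.mem_zmultiples_iff]
    constructor
    · rintro ⟨y, rfl⟩
      refine ⟨y, ?_⟩
      rw [nOp_apply]
      simp [mul_comm]
    · rintro ⟨y, hy⟩
      refine ⟨y, ?_⟩
      rw [nOp_apply]
      simp [hy, mul_comm]
  unfold hIdx
  rw [hD, hN, relIndex_top_right, Int.index_zmultiples]
  simp

/-- For the trivial action on `ℤ` and `n ≠ 0`: `[ker N : im (1 - σ)] = 1`. -/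
theorem hIdx_nOp_int (n : ℕ) (hn : n ≠ 0) :
    hIdx (nOp (1 : AddMonoid.End ℤ) n) (dOp (1 : AddMonoid.End ℤ)) = 1 := by
  have hN : (nOp (1 : AddMonoid.End ℤ) n).ker = ⊥ := by
    ext x
    rw [AddMonoidHom.mem_ker, nOp_apply, AddSubgroup.mem_bot]
    simp [hn]
  unfold hIdx
  rw [hN, relIndex_bot_right]

theorem hqDefined_int (n : ℕ) (hn : n ≠ 0) :
    HQDefined (dOp (1 : AddMonoid.End ℤ)) (nOp (1 : AddMonoid.End ℤ) n) := by
  refine ⟨?_, ?_⟩
  · rw [hIdx_dOp_int]; exact hn
  · rw [hIdx_nOp_int n hn]; exact one_ne_zero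

/-- `ℤ` with trivial action has Herbrand quotient `n`. -/
theorem hqCyc_int (n : ℕ) (hn : n ≠ 0) : hqCyc (1 : AddMonoid.End ℤ) n = n := by
  unfold hqCyc hq
  rw [hIdx_dOp_int, hIdx_nOp_int n hn]
  simp

end Trivial

end Fermat.Agent.CFT.H8
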