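import Fermat.Agent.CFT.HerbrandIndex

/-!
# Herbrand quotients: short exact sequences

`hq f g = [ker f : im g] / [ker g : im f] ∈ ℚ` and `HQDefined f g` (both indices finite).
Multiplicativity and "two out of three" for a short exact sequence `0 → A → B → C → 0`
of additive groups with compatible pairs of endomorphisms.
-/

namespace Fermat.Agent.CFT.H8

open AddSubgroup

variable {A B C : Type*} [AddCommGroup A] [AddCommGroup B] [AddCommGroup C]

/-- Both indices `[ker f : im g]` and `[ker g : im f]` are finite. -/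
def HQDefined {M : Type*} [AddCommGroup M] (f g : M →+ M) : Prop :=
  hIdx f g ≠ 0 ∧ hIdx g f ≠ 0

/-- The Herbrand quotient `[ker f : im g] / [ker g : im f]`. -/
noncomputable def hq {M : Type*} [AddCommGroup M] (f g : M →+ M) : ℚ :=
  (hIdx f g : ℚ) / (hIdx g f : ℚ)

/-- Data of a short exact sequence `0 → A → B → C → 0` with compatible endomorphism pairs. -/
structure ExactPair (fA gA : A →+ A) (f g : B →+ B) (fC gC : C →+ C) where
  ι : A →+ B
  π : B →+ C
  inj : Function.Injective ι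
  surj : Function.Surjective π
  exact : ι.range = π.ker
  ι_f : ∀ a, ι (fA a) = f (ι a)
  ι_g : ∀ a, ι (gA a) = g (ι a)
  π_f : ∀ b, π (f b) = fC (π b)
  π_g : ∀ b, π (g b) = gC (π b)

section

variable {fA gA : A →+ A} {f g : B →+ B} {fC gC : C →+ C}

theorem ExactPair.range_stable_f (E : ExactPair fA gA f g fC gC) :
    ∀ b ∈ E.ι.range, f b ∈ E.ι.range := by
  rintro _ ⟨a, rfl⟩
  exact ⟨fA a, E.ι_f a⟩

theorem ExactPair.range_stable_g (E : ExactPair fA gA f g fC gC) :
    ∀ b ∈ E.ι.range, g b ∈ E.ι.range := by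
  rintro _ ⟨a, rfl⟩
  exact ⟨gA a, E.ι_g a⟩

/-- swap the roles of the two endomorphisms -/
def ExactPair.swap (E : ExactPair fA gA f g fC gC) : ExactPair gA fA g f gC fC where
  ι := E.ι
  π := E.π
  inj := E.inj
  surj := E.surj
  exact := E.exact
  ι_f := E.ι_g
  ι_g := E.ι_f
  π_f := E.π_g
  π_g := E.π_f

theorem ExactPair.map_range_eq (E : ExactPair fA gA f g fC gC) :
    gA.range.map E.ι = E.ι.range.map g := by
  ext x
  simp only [AddSubgroup.mem_map, AddMonoidHom.mem_range]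
  constructor
  · rintro ⟨_, ⟨a, rfl⟩, rfl⟩
    exact ⟨E.ι a, ⟨a, rfl⟩, (E.ι_g a).symm⟩
  · rintro ⟨_, ⟨a, rfl⟩, rfl⟩
    exact ⟨gA a, ⟨a, rfl⟩, E.ι_g a⟩

theorem ExactPair.map_ker_eq (E : ExactPair fA gA f g fC gC) :
    fA.ker.map E.ι = E.ι.range ⊓ f.ker := by
  ext x
  simp only [AddSubgroup.mem_map, AddSubgroup.mem_inf, AddMonoidHom.mem_range,
    AddMonoidHom.mem_ker]
  constructor
  · rintro ⟨a, ha, rfl⟩
    exact ⟨⟨a, rfl⟩, by rw [← E.ι_f, ha, map_zero]⟩
  · rintro ⟨⟨a, rfl⟩, hx⟩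
    refine ⟨a, ?_, rfl⟩
    apply E.inj
    rw [E.ι_f, hx, map_zero]

theorem ExactPair.hIdx_sub (E : ExactPair fA gA f g fC gC) :
    hIdx fA gA = idxSub f g E.ι.range := by
  unfold hIdx idxSub
  rw [← relIndex_map_map_of_injective gA.range fA.ker E.inj, E.map_range_eq, E.map_ker_eq]

theorem ExactPair.comap_range_eq (E : ExactPair fA gA f g fC gC) :
    (gC.range).comap E.π = g.range ⊔ E.ι.range := by
  ext x
  rw [AddSubgroup.mem_comap, AddSubgroup.mem_sup]
  simp only [AddMonoidHom.mem_range]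
  constructor
  · rintro ⟨c, hc⟩
    obtain ⟨b, rfl⟩ := E.surj c
    refine ⟨g b, ⟨b, rfl⟩, x - g b, ?_, by abel⟩
    have hmem : x - g b ∈ E.π.ker := by
      rw [AddMonoidHom.mem_ker, map_sub, E.π_g, hc, sub_self]
    rw [← E.exact] at hmem
    exact AddMonoidHom.mem_range.mp hmem
  · rintro ⟨y, ⟨b, rfl⟩, z, hz, rfl⟩
    have hz' : z ∈ E.π.ker := by
      rw [← E.exact]
      exact AddMonoidHom.mem_range.mpr hz
    rw [AddMonoidHom.mem_ker] at hz'
    exact ⟨E.π b, by rw [map_add, hz', add_zero, E.π_g]⟩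

theorem ExactPair.map_comap_eq (E : ExactPair fA gA f g fC gC) :
    (E.ι.range.comap f).map E.π = fC.ker := by
  ext c
  simp only [AddSubgroup.mem_map, AddSubgroup.mem_comap, AddMonoidHom.mem_ker]
  constructor
  · rintro ⟨b, hb, rfl⟩
    rw [E.exact, AddMonoidHom.mem_ker, E.π_f] at hb
    exact hb
  · intro hc
    obtain ⟨b, rfl⟩ := E.surj c
    refine ⟨b, ?_, rfl⟩
    rw [E.exact, AddMonoidHom.mem_ker, E.π_f]
    exact hc

theorem ExactPair.hIdx_quot (E : ExactPair fA gA f g fC gC) :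
    hIdx fC gC = idxQuot f g E.ι.range := by
  unfold hIdx idxQuot
  rw [← E.comap_range_eq, relIndex_comap, E.map_comap_eq]

theorem ExactPair.hIdx_sub' (E : ExactPair fA gA f g fC gC) :
    hIdx gA fA = idxSub g f E.ι.range := E.swap.hIdx_sub

theorem ExactPair.hIdx_quot' (E : ExactPair fA gA f g fC gC) :
    hIdx gC fC = idxQuot g f E.ι.range := E.swap.hIdx_quot

/-- **Multiplicativity of Herbrand indices** in a short exact sequence (division-free form). -/
theorem ExactPair.hIdx_mul (E : ExactPair fA gA f g fC gC)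
    (hfg : ∀ x, f (g x) = 0) (hgf : ∀ x, g (f x) = 0) :
    hIdx f g * hIdx gA fA * hIdx gC fC = hIdx g f * hIdx fA gA * hIdx fC gC := by
  rw [E.hIdx_sub, E.hIdx_quot, E.hIdx_sub', E.hIdx_quot']
  exact hIdx_mul_core hfg hgf E.range_stable_f E.range_stable_g

/-- Two out of three: `A` and `C` defined imply `B` defined. -/
theorem ExactPair.defined_mid (E : ExactPair fA gA f g fC gC)
    (hfg : ∀ x, f (g x) = 0) (hgf : ∀ x, g (f x) = 0)
    (hA : HQDefined fA gA) (hC : HQDefined fC gC) : HQDefined f g := by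
  obtain ⟨hA1, hA2⟩ := hA
  obtain ⟨hC1, hC2⟩ := hC
  rw [E.hIdx_sub, idxSub_eq hfg E.range_stable_g] at hA1
  rw [E.hIdx_sub', idxSub_eq hgf E.range_stable_f] at hA2
  rw [E.hIdx_quot, idxQuot_eq hfg E.range_stable_f] at hC1
  rw [E.hIdx_quot', idxQuot_eq hgf E.range_stable_g] at hC2
  constructor
  · rw [idxMid_eq (A := E.ι.range) hfg]
    exact mul_ne_zero (right_ne_zero_of_mul hA1) (left_ne_zero_of_mul hC1)
  · rw [idxMid_eq (A := E.ι.range) hgf]
    exact mul_ne_zero (right_ne_zero_of_mul hA2) (left_ne_zero_of_mul hC2)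

/-- Two out of three: `A` and `B` defined imply `C` defined. -/
theorem ExactPair.defined_quot (E : ExactPair fA gA f g fC gC)
    (hfg : ∀ x, f (g x) = 0) (hgf : ∀ x, g (f x) = 0)
    (hA : HQDefined fA gA) (hB : HQDefined f g) : HQDefined fC gC := by
  obtain ⟨hA1, hA2⟩ := hA
  obtain ⟨hB1, hB2⟩ := hB
  rw [E.hIdx_sub, idxSub_eq hfg E.range_stable_g] at hA1
  rw [E.hIdx_sub', idxSub_eq hgf E.range_stable_f] at hA2
  rw [idxMid_eq (A := E.ι.range) hfg] at hB1
  rw [idxMid_eq (A := E.ι.range) hgf] at hB2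
  constructor
  · rw [E.hIdx_quot, idxQuot_eq hfg E.range_stable_f]
    exact mul_ne_zero (right_ne_zero_of_mul hB1) (left_ne_zero_of_mul hA2)
  · rw [E.hIdx_quot', idxQuot_eq hgf E.range_stable_g]
    exact mul_ne_zero (right_ne_zero_of_mul hB2) (left_ne_zero_of_mul hA1)

/-- Two out of three: `B` and `C` defined imply `A` defined. -/
theorem ExactPair.defined_sub (E : ExactPair fA gA f g fC gC)
    (hfg : ∀ x, f (g x) = 0) (hgf : ∀ x, g (f x) = 0)
    (hB : HQDefined f g) (hC : HQDefined fC gC) : HQDefined fA gA := by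
  obtain ⟨hB1, hB2⟩ := hB
  obtain ⟨hC1, hC2⟩ := hC
  rw [idxMid_eq (A := E.ι.range) hfg] at hB1
  rw [idxMid_eq (A := E.ι.range) hgf] at hB2
  rw [E.hIdx_quot, idxQuot_eq hfg E.range_stable_f] at hC1
  rw [E.hIdx_quot', idxQuot_eq hgf E.range_stable_g] at hC2
  constructor
  · rw [E.hIdx_sub, idxSub_eq hfg E.range_stable_g]
    exact mul_ne_zero (right_ne_zero_of_mul hC2) (left_ne_zero_of_mul hB1)
  · rw [E.hIdx_sub', idxSub_eq hgf E.range_stable_f]
    exact mul_ne_zero (right_ne_zero_of_mul hC1) (left_ne_zero_of_mul hB2)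

/-- **Multiplicativity of the Herbrand quotient**: `q(B) = q(A) * q(C)`. -/
theorem ExactPair.hq_mul (E : ExactPair fA gA f g fC gC)
    (hfg : ∀ x, f (g x) = 0) (hgf : ∀ x, g (f x) = 0)
    (hA : HQDefined fA gA) (hC : HQDefined fC gC) :
    hq f g = hq fA gA * hq fC gC := by
  have hB := E.defined_mid hfg hgf hA hC
  have key := E.hIdx_mul hfg hgf
  have key' : (hIdx f g : ℚ) * hIdx gA fA * hIdx gC fC = hIdx g f * hIdx fA gA * hIdx fC gC := by
    exact_mod_cast key
  have h1 : (hIdx g f : ℚ) ≠ 0 := by exact_mod_cast hB.2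
  have h2 : (hIdx gA fA : ℚ) ≠ 0 := by exact_mod_cast hA.2
  have h3 : (hIdx gC fC : ℚ) ≠ 0 := by exact_mod_cast hC.2
  unfold hq
  field_simp
  linear_combination key'

end

end Fermat.Agent.CFT.H8
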