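import Mathlib

/-!
# Herbrand quotients: the index computation

For an additive commutative group `B` with two endomorphisms `f g` such that `f ∘ g = 0 = g ∘ f`
we put `hIdx f g = [ker f : im g]` (an element of `ℕ`, `0` when the index is infinite).
The Herbrand quotient is `hIdx f g / hIdx g f`.

The main result of this file is the multiplicativity in short exact sequences
`0 → A → B → C → 0` compatible with the endomorphisms, in the cancellation-free form
`hIdx f g * hIdx gA fA * hIdx gC fC = hIdx g f * hIdx fA gA * hIdx fC gC`,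
together with the "two out of three" finiteness statements.
Everything is proved by index computations inside `B`.
-/

namespace Fermat.Agent.CFT.H8

open AddSubgroup

variable {B : Type*} [AddCommGroup B]

/-- `[ker f : im g]`, as a natural number (`0` if infinite). -/
noncomputable def hIdx {M : Type*} [AddCommGroup M] (f g : M →+ M) : ℕ :=
  g.range.relIndex f.ker

section Core

variable (f g : B →+ B) (A : AddSubgroup B)

/-- `[A ∩ ker f : A ∩ im g]` -/
noncomputable def idxα : ℕ := (A ⊓ g.range).relIndex (A ⊓ f.ker)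
/-- `[A ∩ im g : g(A)]` -/
noncomputable def idxβ : ℕ := (A.map g).relIndex (A ⊓ g.range)
/-- `[ker f + A : im g + A]` -/
noncomputable def idxγ : ℕ := (g.range ⊔ A).relIndex (f.ker ⊔ A)

/-- `[A ∩ ker f : g(A)]` -/
noncomputable def idxSub : ℕ := (A.map g).relIndex (A ⊓ f.ker)
/-- `[f⁻¹(A) : im g + A]` -/
noncomputable def idxQuot : ℕ := (g.range ⊔ A).relIndex (A.comap f)

variable {f g A}

theorem range_le_ker (hfg : ∀ x, f (g x) = 0) : g.range ≤ f.ker := by
  rintro _ ⟨x, rfl⟩
  exact hfg x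

theorem map_le_inf_range (hgA : ∀ a ∈ A, g a ∈ A) : A.map g ≤ A ⊓ g.range := by
  rintro _ ⟨a, ha, rfl⟩
  exact ⟨hgA a ha, a, rfl⟩

theorem idxSub_eq (hfg : ∀ x, f (g x) = 0) (hgA : ∀ a ∈ A, g a ∈ A) :
    idxSub f g A = idxβ g A * idxα f g A := by
  unfold idxSub idxβ idxα
  rw [relIndex_mul_relIndex _ _ _ (map_le_inf_range hgA)
    (inf_le_inf_left A (range_le_ker hfg))]

theorem idxMid_eq (hfg : ∀ x, f (g x) = 0) :
    hIdx f g = idxα f g A * idxγ f g A := by
  have hle : g.range ≤ f.ker := range_le_ker hfg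
  unfold hIdx idxα idxγ
  -- tower `im g ≤ ker f ⊓ (im g ⊔ A) ≤ ker f`
  have h1 : g.range.relIndex (f.ker ⊓ (g.range ⊔ A)) * (f.ker ⊓ (g.range ⊔ A)).relIndex f.ker =
      g.range.relIndex f.ker :=
    relIndex_mul_relIndex _ _ _ (le_inf hle le_sup_left) inf_le_left
  -- first factor
  have hmod : f.ker ⊓ (g.range ⊔ A) = g.range ⊔ (A ⊓ f.ker) := by
    apply le_antisymm
    · rintro x ⟨hx1, hx2⟩
      obtain ⟨y, hy, z, hz, rfl⟩ := AddSubgroup.mem_sup.mp hx2
      refine AddSubgroup.mem_sup.mpr ⟨y, hy, z, ⟨hz, ?_⟩, rfl⟩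
      have hyk : y ∈ f.ker := hle hy
      have : y + z - y ∈ f.ker := sub_mem hx1 hyk
      simpa using this
    · refine sup_le (le_inf hle le_sup_left) ?_
      exact le_inf inf_le_right (le_trans inf_le_left le_sup_right)
  have h2 : g.range.relIndex (f.ker ⊓ (g.range ⊔ A)) = (A ⊓ g.range).relIndex (A ⊓ f.ker) := by
    rw [hmod, relIndex_sup_left, ← inf_relIndex_right]
    congr 1
    apply le_antisymm
    · exact le_inf (le_trans inf_le_right inf_le_left) inf_le_left
    · exact le_inf inf_le_right (le_inf inf_le_left (le_trans inf_le_right hle))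
  -- second factor
  have h3 : (f.ker ⊓ (g.range ⊔ A)).relIndex f.ker = (g.range ⊔ A).relIndex (f.ker ⊔ A) := by
    rw [inf_relIndex_left]
    have : f.ker ⊔ A = f.ker ⊔ (g.range ⊔ A) := by
      rw [← sup_assoc, sup_eq_left.mpr hle]
    rw [this, relIndex_sup_right]
  rw [← h1, h2, h3]

theorem idxQuot_eq (hfg : ∀ x, f (g x) = 0) (hfA : ∀ a ∈ A, f a ∈ A) :
    idxQuot f g A = idxγ f g A * idxβ f A := by
  have hle : g.range ≤ f.ker := range_le_ker hfg
  have hkc : f.ker ≤ A.comap f := by
    intro x hx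
    rw [AddSubgroup.mem_comap, AddMonoidHom.mem_ker.mp hx]
    exact A.zero_mem
  have hAc : A ≤ A.comap f := fun a ha => hfA a ha
  unfold idxQuot idxγ idxβ
  have h1 : (g.range ⊔ A).relIndex (f.ker ⊔ A) * (f.ker ⊔ A).relIndex (A.comap f) =
      (g.range ⊔ A).relIndex (A.comap f) :=
    relIndex_mul_relIndex _ _ _ (sup_le_sup_right hle A) (sup_le hkc hAc)
  have h2 : (A.map f).relIndex (A ⊓ f.range) = (f.ker ⊔ A).relIndex (A.comap f) := by
    have := relIndex_map_map f A (A.comap f)
    rw [AddSubgroup.map_comap_eq, sup_eq_left.mpr hkc] at this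
    rw [inf_comm, this, sup_comm]
  rw [← h1, h2]

/-- **Multiplicativity of the Herbrand quotient**, subgroup form, without division. -/
theorem hIdx_mul_core (hfg : ∀ x, f (g x) = 0) (hgf : ∀ x, g (f x) = 0)
    (hfA : ∀ a ∈ A, f a ∈ A) (hgA : ∀ a ∈ A, g a ∈ A) :
    hIdx f g * idxSub g f A * idxQuot g f A = hIdx g f * idxSub f g A * idxQuot f g A := by
  rw [idxMid_eq (A := A) hfg, idxMid_eq (A := A) hgf, idxSub_eq hfg hgA, idxSub_eq hgf hfA,
    idxQuot_eq hfg hfA, idxQuot_eq hgf hgA]
  ring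

end Core

end Fermat.Agent.CFT.H8
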