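import Fermat.Agent.CFT.HerbrandCyclic

/-!
# Herbrand quotients: cohomologically trivial (induced) modules

* `ker_dOp_le_range_nOp`, `ker_nOp_le_range_dOp` : if `σ ^ n = 1` and there is an additive
  endomorphism `π` with `∑ k < n, σ ^ k ∘ π ∘ σ ^ (n - k) = 1`, then `ker (1 - σ) = im N` and
  `ker N = im (1 - σ)`.
* `hIdx_dOp_of_splitting`, `hIdx_nOp_of_splitting` : hence both Herbrand indices are `1`.
* `permEnd τ` : the action of a permutation `τ` of `S` on functions `S → X`, and
  `hIdx_dOp_perm`, `hIdx_nOp_perm` for a permutation with `τ ^ n = 1` acting freely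
  (`τ ^ i` has no fixed point for `0 < i < n`).
* `hIdx_congr` : transport along an isomorphism.
-/

namespace Fermat.Agent.CFT.H8

open AddSubgroup Finset

section Transport

variable {M M' : Type*} [AddCommGroup M] [AddCommGroup M']

/-- Herbrand indices are invariant under isomorphisms commuting with the endomorphisms. -/
theorem hIdx_congr (e : M ≃+ M') (f g : M →+ M) (f' g' : M' →+ M')
    (hf : ∀ x, e (f x) = f' (e x)) (hg : ∀ x, e (g x) = g' (e x)) :
    hIdx f g = hIdx f' g' := by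
  unfold hIdx
  rw [← relIndex_map_map_of_injective g.range f.ker (f := e.toAddMonoidHom) e.injective]
  congr 1
  · ext y
    simp only [AddSubgroup.mem_map, AddMonoidHom.mem_range]
    constructor
    · rintro ⟨_, ⟨x, rfl⟩, rfl⟩
      exact ⟨e x, (hg x).symm⟩
    · rintro ⟨x', rfl⟩
      refine ⟨g (e.symm x'), ⟨e.symm x', rfl⟩, ?_⟩
      show e (g (e.symm x')) = _
      rw [hg, e.apply_symm_apply]
  · ext y
    simp only [AddSubgroup.mem_map, AddMonoidHom.mem_ker]
    constructor
    · rintro ⟨x, hx, rfl⟩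
      show f' (e x) = 0
      rw [← hf, hx, map_zero]
    · intro hy
      refine ⟨e.symm y, ?_, e.apply_symm_apply y⟩
      apply e.injective
      rw [hf, e.apply_symm_apply, hy, map_zero]

end Transport

section Splitting

variable {M : Type*} [AddCommGroup M]

theorem end_sum_apply {ι : Type*} (s : Finset ι) (F : ι → AddMonoid.End M) (m : M) :
    (∑ k ∈ s, F k : AddMonoid.End M) m = ∑ k ∈ s, (F k) m := by
  classical
  induction s using Finset.induction_on with
  | empty =>
    rw [Finset.sum_empty, Finset.sum_empty]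
    rfl
  | insert a s ha ih =>
    rw [Finset.sum_insert ha, Finset.sum_insert ha, ← ih]
    rfl

/-- If `∑ k < n, σ ^ k * π * σ ^ (n - k) = 1`, then every `σ`-invariant element is a norm. -/
theorem ker_dOp_le_range_nOp (σ π : AddMonoid.End M) (n : ℕ)
    (hπ : ∑ k ∈ range n, σ ^ k * π * σ ^ (n - k) = 1) :
    (dOp σ).ker ≤ (nOp σ n).range := by
  intro m hm
  rw [AddMonoidHom.mem_ker, dOp_apply, sub_eq_zero] at hm
  have hpow : ∀ j : ℕ, (σ ^ j) m = m := by
    intro j
    induction j with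
    | zero => rfl
    | succ j ih =>
      rw [pow_succ]
      show (σ ^ j) (σ m) = m
      rw [← hm, ih]
  refine ⟨π m, ?_⟩
  rw [nOp_apply]
  have h1 : (∑ k ∈ range n, σ ^ k * π * σ ^ (n - k) : AddMonoid.End M) m = m := by
    rw [hπ]
    rfl
  rw [end_sum_apply] at h1
  conv_rhs => rw [← h1]
  refine Finset.sum_congr rfl fun k _ => ?_
  show (σ ^ k) (π m) = (σ ^ k) (π ((σ ^ (n - k)) m))
  rw [hpow]

/-- The operator identity behind the vanishing of `H¹` of an induced module. -/
theorem one_sub_mul_homotopy {R : Type*} [Ring R] (σ π : R) (n : ℕ) (hσ : σ ^ n = 1)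
    (hπ : ∑ k ∈ range n, σ ^ k * π * σ ^ (n - k) = 1) :
    (1 - σ) * (∑ k ∈ range n, σ ^ k * π * σ ^ (n - k) * ∑ j ∈ range k, σ ^ j) =
      1 - π * ∑ j ∈ range n, σ ^ j := by
  set T : ℕ → R := fun k => σ ^ k * π * σ ^ (n - k) with hT
  set S : ℕ → R := fun k => ∑ j ∈ range k, σ ^ j with hS
  have hS0 : S 0 = 0 := by simp [hS]
  have hSsucc : ∀ k, σ * S k = S (k + 1) - 1 := by
    intro k
    simp only [hS]
    rw [Finset.sum_range_succ', Finset.mul_sum]
    simp [pow_succ']
  have hstep : ∀ k ∈ range n, σ * (T k * S k) = T (k + 1) * (S (k + 1) - 1) := by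
    intro k hk
    have hk' : k < n := Finset.mem_range.mp hk
    have hnk : n - k = (n - (k + 1)) + 1 := by omega
    simp only [hT]
    rw [← hSsucc k, hnk, pow_succ σ (n - (k + 1)), pow_succ' σ k]
    noncomm_ring
  have hTn : T n = π := by simp [hT, hσ]
  have hT0 : T 0 = π := by simp [hT, hσ]
  have hσB : σ * (∑ k ∈ range n, T k * S k) =
      (∑ k ∈ range n, T k * S k) - 1 + π * S n := by
    rw [Finset.mul_sum, Finset.sum_congr rfl hstep]
    have h1 : ∑ k ∈ range n, T (k + 1) * (S (k + 1) - 1) =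
        (∑ k ∈ range (n + 1), T k * (S k - 1)) - T 0 * (S 0 - 1) := by
      rw [Finset.sum_range_succ' (fun k => T k * (S k - 1)) n]
      abel
    rw [h1, Finset.sum_range_succ, hS0, hTn, hT0]
    have h2 : ∑ k ∈ range n, T k * (S k - 1) = (∑ k ∈ range n, T k * S k) - 1 := by
      simp only [mul_sub, mul_one, Finset.sum_sub_distrib]
      rw [hπ]
    rw [h2]
    noncomm_ring
  rw [sub_mul, one_mul, hσB]
  abel

/-- If `σ ^ n = 1` and `∑ k < n, σ ^ k * π * σ ^ (n - k) = 1`, then every element of norm zero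
is of the form `b - σ b`. -/
theorem ker_nOp_le_range_dOp (σ π : AddMonoid.End M) (n : ℕ) (hσ : σ ^ n = 1)
    (hπ : ∑ k ∈ range n, σ ^ k * π * σ ^ (n - k) = 1) :
    (nOp σ n).ker ≤ (dOp σ).range := by
  intro m hm
  have hm' : (∑ j ∈ range n, σ ^ j : AddMonoid.End M) m = 0 := hm
  set Bop : AddMonoid.End M :=
    ∑ k ∈ range n, σ ^ k * π * σ ^ (n - k) * ∑ j ∈ range k, σ ^ j with hB
  refine ⟨Bop m, ?_⟩
  have key : ((1 - σ) * Bop : AddMonoid.End M) m =
      ((1 : AddMonoid.End M) - π * ∑ j ∈ range n, σ ^ j) m :=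
    congrArg (fun e : AddMonoid.End M => e m) (one_sub_mul_homotopy σ π n hσ hπ)
  have h1 : ((1 - σ) * Bop : AddMonoid.End M) m = dOp σ (Bop m) := rfl
  have h2 : ((1 : AddMonoid.End M) - π * ∑ j ∈ range n, σ ^ j) m = m := by
    show m - π ((∑ j ∈ range n, σ ^ j : AddMonoid.End M) m) = m
    rw [hm', map_zero, sub_zero]
  rw [← h1, key, h2]

theorem hIdx_dOp_of_splitting (σ π : AddMonoid.End M) (n : ℕ)
    (hπ : ∑ k ∈ range n, σ ^ k * π * σ ^ (n - k) = 1) :
    hIdx (dOp σ) (nOp σ n) = 1 := by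
  unfold hIdx
  rw [relIndex_eq_one]
  exact ker_dOp_le_range_nOp σ π n hπ

theorem hIdx_nOp_of_splitting (σ π : AddMonoid.End M) (n : ℕ) (hσ : σ ^ n = 1)
    (hπ : ∑ k ∈ range n, σ ^ k * π * σ ^ (n - k) = 1) :
    hIdx (nOp σ n) (dOp σ) = 1 := by
  unfold hIdx
  rw [relIndex_eq_one]
  exact ker_nOp_le_range_dOp σ π n hσ hπ

theorem hqDefined_of_splitting (σ π : AddMonoid.End M) (n : ℕ) (hσ : σ ^ n = 1)
    (hπ : ∑ k ∈ range n, σ ^ k * π * σ ^ (n - k) = 1) :
    HQDefined (dOp σ) (nOp σ n) := by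
  refine ⟨?_, ?_⟩
  · rw [hIdx_dOp_of_splitting σ π n hπ]; exact one_ne_zero
  · rw [hIdx_nOp_of_splitting σ π n hσ hπ]; exact one_ne_zero

/-- A module with a splitting `π` has Herbrand quotient `1`. -/
theorem hqCyc_of_splitting (σ π : AddMonoid.End M) (n : ℕ) (hσ : σ ^ n = 1)
    (hπ : ∑ k ∈ range n, σ ^ k * π * σ ^ (n - k) = 1) :
    hqCyc σ n = 1 := by
  unfold hqCyc hq
  rw [hIdx_dOp_of_splitting σ π n hπ, hIdx_nOp_of_splitting σ π n hσ hπ]
  simp

end Splitting

section Perm

variable {S X : Type*} [AddCommGroup X]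

/-- The action of a permutation `τ` of `S` on functions `S → X`: `(σ m) s = m (τ⁻¹ s)`. -/
def permEnd (τ : Equiv.Perm S) : AddMonoid.End (S → X) where
  toFun m := fun s => m (τ.symm s)
  map_zero' := rfl
  map_add' _ _ := rfl

theorem permEnd_apply (τ : Equiv.Perm S) (m : S → X) (s : S) :
    (permEnd τ : AddMonoid.End (S → X)) m s = m (τ.symm s) := rfl

theorem permEnd_pow_apply (τ : Equiv.Perm S) (k : ℕ) (m : S → X) (s : S) :
    ((permEnd τ : AddMonoid.End (S → X)) ^ k) m s = m ((τ ^ k).symm s) := by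
  induction k generalizing m s with
  | zero => rfl
  | succ k ih =>
    rw [pow_succ]
    show ((permEnd τ : AddMonoid.End (S → X)) ^ k) ((permEnd τ : AddMonoid.End (S → X)) m) s = _
    rw [ih, permEnd_apply]
    congr 1
    rw [pow_succ]
    rfl

theorem permEnd_pow_eq_one (τ : Equiv.Perm S) (n : ℕ) (hτ : τ ^ n = 1) :
    (permEnd τ : AddMonoid.End (S → X)) ^ n = 1 := by
  refine DFunLike.ext _ _ fun m => funext fun s => ?_
  show ((permEnd τ : AddMonoid.End (S → X)) ^ n) m s = m s
  rw [permEnd_pow_apply, hτ]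
  rfl

open Classical in
/-- Multiplication by the indicator function of a set `R ⊆ S`. -/
noncomputable def indEnd (R : Set S) : AddMonoid.End (S → X) where
  toFun m := fun s => if s ∈ R then m s else 0
  map_zero' := by
    funext s
    simp
  map_add' a b := by
    funext s
    by_cases h : s ∈ R <;> simp [h]

open Classical in
theorem indEnd_apply (R : Set S) (m : S → X) (s : S) :
    (indEnd R : AddMonoid.End (S → X)) m s = if s ∈ R then m s else 0 := rfl

/-- A fundamental domain for `τ` (with `τ ^ n = 1`) gives a splitting of the induced module. -/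
theorem perm_splitting (τ : Equiv.Perm S) (n : ℕ) (hτ : τ ^ n = 1) (R : Set S)
    (hR : ∀ s, ∃! k, k < n ∧ (τ ^ k).symm s ∈ R) :
    ∑ k ∈ range n, (permEnd τ : AddMonoid.End (S → X)) ^ k * indEnd R *
      (permEnd τ : AddMonoid.End (S → X)) ^ (n - k) = 1 := by
  classical
  refine DFunLike.ext _ _ fun m => funext fun s => ?_
  show (∑ k ∈ range n, (permEnd τ : AddMonoid.End (S → X)) ^ k * indEnd R *
      (permEnd τ : AddMonoid.End (S → X)) ^ (n - k) : AddMonoid.End (S → X)) m s = m s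
  rw [end_sum_apply, Finset.sum_apply]
  have hterm : ∀ k ∈ range n, ((permEnd τ : AddMonoid.End (S → X)) ^ k * indEnd R *
      (permEnd τ : AddMonoid.End (S → X)) ^ (n - k) : AddMonoid.End (S → X)) m s =
      if (τ ^ k).symm s ∈ R then m s else 0 := by
    intro k hk
    have hk' : k < n := Finset.mem_range.mp hk
    show ((permEnd τ : AddMonoid.End (S → X)) ^ k)
      ((indEnd R : AddMonoid.End (S → X)) (((permEnd τ : AddMonoid.End (S → X)) ^ (n - k)) m)) s = _
    rw [permEnd_pow_apply, indEnd_apply, permEnd_pow_apply]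
    have : (τ ^ (n - k)).symm ((τ ^ k).symm s) = s := by
      have h1 : τ ^ k * τ ^ (n - k) = 1 := by
        rw [← pow_add, Nat.add_sub_cancel' hk'.le, hτ]
      have h2 : (τ ^ k * τ ^ (n - k)).symm s = s := by rw [h1]; rfl
      exact h2
    rw [this]
  rw [Finset.sum_congr rfl hterm]
  obtain ⟨k₀, ⟨hk₀, hk₀R⟩, huniq⟩ := hR s
  rw [Finset.sum_eq_single k₀]
  · rw [if_pos hk₀R]
  · intro k hk hne
    rw [if_neg]
    intro hkR
    exact hne (huniq k ⟨Finset.mem_range.mp hk, hkR⟩)
  · intro h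
    exact absurd (Finset.mem_range.mpr hk₀) h

/-- A permutation with `τ ^ n = 1` acting freely has a fundamental domain. -/
theorem exists_fundamental_domain (τ : Equiv.Perm S) (n : ℕ) (hn : 0 < n) (hτ : τ ^ n = 1)
    (hfree : ∀ s, ∀ i, 0 < i → i < n → (τ ^ i) s ≠ s) :
    ∃ R : Set S, ∀ s, ∃! k, k < n ∧ (τ ^ k).symm s ∈ R := by
  classical
  have hmod : ∀ (i : ℕ) (t : S), (τ ^ (i % n)) t = (τ ^ i) t := by
    intro i t
    conv_rhs => rw [← Nat.div_add_mod i n, pow_add, pow_mul, hτ, one_pow, one_mul]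
  let r : Setoid S :=
    { r := fun s t => ∃ i : ℕ, (τ ^ i) t = s
      iseqv :=
        { refl := fun s => ⟨0, rfl⟩
          symm := by
            rintro s t ⟨i, hi⟩
            refine ⟨(n - 1) * i, ?_⟩
            rw [← hi, ← Equiv.Perm.mul_apply, ← pow_add]
            have : (n - 1) * i + i = n * i := by
              have : n - 1 + 1 = n := Nat.sub_add_cancel hn
              calc (n - 1) * i + i = (n - 1 + 1) * i := by ring
                _ = n * i := by rw [this]
            rw [this, pow_mul, hτ, one_pow]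
            rfl
          trans := by
            rintro s t u ⟨i, hi⟩ ⟨j, hj⟩
            refine ⟨i + j, ?_⟩
            rw [pow_add, Equiv.Perm.mul_apply, hj, hi] } }
  refine ⟨Set.range (fun q : Quotient r => q.out), fun s => ?_⟩
  have hrep : r (Quotient.out (Quotient.mk r s)) s := Quotient.exact (Quotient.out_eq _)
  have hrep' : r s (Quotient.out (Quotient.mk r s)) := r.symm hrep
  obtain ⟨i, hi⟩ := hrep'
  refine ⟨i % n, ⟨Nat.mod_lt _ hn, ⟨Quotient.mk r s, ?_⟩⟩, ?_⟩
  · show Quotient.out (Quotient.mk r s) = (τ ^ (i % n)).symm s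
    rw [Equiv.eq_symm_apply, hmod, hi]
  · rintro k ⟨hk, ⟨q, hq⟩⟩
    have hq' : (τ ^ k) (Quotient.out q) = s := by
      have := congrArg (τ ^ k) hq
      simpa using this
    -- `q = ⟦s⟧`
    have hqs : q = Quotient.mk r s := by
      rw [← Quotient.out_eq q]
      exact Quotient.sound (r.symm ⟨k, hq'⟩)
    rw [hqs] at hq'
    have hi' : (τ ^ (i % n)) (Quotient.out (Quotient.mk r s)) = s := by rw [hmod, hi]
    set t := Quotient.out (Quotient.mk r s) with ht
    set j := i % n with hj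
    have hjn : j < n := Nat.mod_lt _ hn
    -- τ^k t = τ^j t with k, j < n
    rcases lt_trichotomy k j with hlt | heq | hgt
    · exfalso
      have h1 : (τ ^ (j - k)) s = s := by
        conv_lhs => rw [← hq', ← Equiv.Perm.mul_apply, ← pow_add, Nat.sub_add_cancel hlt.le, hi']
      exact hfree s (j - k) (Nat.sub_pos_of_lt hlt) (by omega) h1
    · exact heq
    · exfalso
      have h1 : (τ ^ (k - j)) s = s := by
        conv_lhs => rw [← hi', ← Equiv.Perm.mul_apply, ← pow_add, Nat.sub_add_cancel hgt.le, hq']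
      exact hfree s (k - j) (Nat.sub_pos_of_lt hgt) (by omega) h1

/-- **Induced modules are cohomologically trivial**: for a freely acting permutation `τ` of order
dividing `n`, the module of functions `S → X` has `ker (1 - σ) = im N`. -/
theorem hIdx_dOp_perm (τ : Equiv.Perm S) (n : ℕ) (hn : 0 < n) (hτ : τ ^ n = 1)
    (hfree : ∀ s, ∀ i, 0 < i → i < n → (τ ^ i) s ≠ s) :
    hIdx (dOp (permEnd τ : AddMonoid.End (S → X))) (nOp (permEnd τ) n) = 1 := by
  obtain ⟨R, hR⟩ := exists_fundamental_domain τ n hn hτ hfree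
  exact hIdx_dOp_of_splitting _ (indEnd R) n (perm_splitting τ n hτ R hR)

/-- **Induced modules are cohomologically trivial**: `ker N = im (1 - σ)`. -/
theorem hIdx_nOp_perm (τ : Equiv.Perm S) (n : ℕ) (hn : 0 < n) (hτ : τ ^ n = 1)
    (hfree : ∀ s, ∀ i, 0 < i → i < n → (τ ^ i) s ≠ s) :
    hIdx (nOp (permEnd τ : AddMonoid.End (S → X)) n) (dOp (permEnd τ)) = 1 := by
  obtain ⟨R, hR⟩ := exists_fundamental_domain τ n hn hτ hfree
  exact hIdx_nOp_of_splitting _ (indEnd R) n (permEnd_pow_eq_one τ n hτ)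
    (perm_splitting τ n hτ R hR)

theorem hqDefined_perm (τ : Equiv.Perm S) (n : ℕ) (hn : 0 < n) (hτ : τ ^ n = 1)
    (hfree : ∀ s, ∀ i, 0 < i → i < n → (τ ^ i) s ≠ s) :
    HQDefined (dOp (permEnd τ : AddMonoid.End (S → X))) (nOp (permEnd τ) n) := by
  refine ⟨?_, ?_⟩
  · rw [hIdx_dOp_perm τ n hn hτ hfree]; exact one_ne_zero
  · rw [hIdx_nOp_perm τ n hn hτ hfree]; exact one_ne_zero

theorem hqCyc_perm (τ : Equiv.Perm S) (n : ℕ) (hn : 0 < n) (hτ : τ ^ n = 1)
    (hfree : ∀ s, ∀ i, 0 < i → i < n → (τ ^ i) s ≠ s) :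
    hqCyc (permEnd τ : AddMonoid.End (S → X)) n = 1 := by
  unfold hqCyc hq
  rw [hIdx_dOp_perm τ n hn hτ hfree, hIdx_nOp_perm τ n hn hτ hfree]
  simp

end Perm

end Fermat.Agent.CFT.H8
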