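import Fermat.Agent.CFT.HerbrandInduced

/-!
# Herbrand quotient of a unit-like module (abstract form of B-UNIT)

* `resEnd`, `quotEnd`, `ExactPair.ofSubgroup` : the short exact sequence `0 → A → B → B ⧸ A → 0`
  attached to a subgroup stable under two endomorphisms.
* `hIdx_of_finiteIndex` : passing to a stable subgroup of finite index does not change the
  Herbrand quotient (division-free form).
* `units_index` : if `E` receives an equivariant map `φ` from a free permutation module `S → ℤ`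
  (for a cyclic action of odd order `n`) with image of finite index and infinite cyclic kernel,
  then `n * [ker (1 - σ) : im N] = [ker N : im (1 - σ)]`, i.e. the Herbrand quotient of `E`
  is `1 / n`.
-/

namespace Fermat.Agent.CFT.H8

open AddSubgroup Finset

section Subgroup

variable {B : Type*} [AddCommGroup B]

/-- Restriction of an endomorphism to a stable subgroup. -/
def resEnd (f : B →+ B) (A : AddSubgroup B) (hA : ∀ a ∈ A, f a ∈ A) : A →+ A :=
  (f.comp A.subtype).codRestrict A (fun a => hA a a.2)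

@[simp] theorem resEnd_coe (f : B →+ B) (A : AddSubgroup B) (hA : ∀ a ∈ A, f a ∈ A) (a : A) :
    ((resEnd f A hA a : A) : B) = f a := rfl

/-- The endomorphism induced on the quotient by a stable subgroup. -/
def quotEnd (f : B →+ B) (A : AddSubgroup B) (hA : ∀ a ∈ A, f a ∈ A) : B ⧸ A →+ B ⧸ A :=
  QuotientAddGroup.map A A f (fun a ha => hA a ha)

@[simp] theorem quotEnd_mk (f : B →+ B) (A : AddSubgroup B) (hA : ∀ a ∈ A, f a ∈ A) (b : B) :
    quotEnd f A hA (QuotientAddGroup.mk b) = QuotientAddGroup.mk (f b) := rfl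

/-- The exact sequence `0 → A → B → B ⧸ A → 0` of a subgroup stable under `f` and `g`. -/
def ExactPair.ofSubgroup (f g : B →+ B) (A : AddSubgroup B) (hfA : ∀ a ∈ A, f a ∈ A)
    (hgA : ∀ a ∈ A, g a ∈ A) :
    ExactPair (resEnd f A hfA) (resEnd g A hgA) f g (quotEnd f A hfA) (quotEnd g A hgA) where
  ι := A.subtype
  π := QuotientAddGroup.mk' A
  inj := Subtype.coe_injective
  surj := QuotientAddGroup.mk'_surjective A
  exact := by
    rw [QuotientAddGroup.ker_mk', AddSubgroup.range_subtype]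
  ι_f := fun _ => rfl
  ι_g := fun _ => rfl
  π_f := fun _ => rfl
  π_g := fun _ => rfl

/-- A stable subgroup of finite index has the same Herbrand quotient (division-free form). -/
theorem hIdx_of_finiteIndex (f g : B →+ B) (hfg : ∀ x, f (g x) = 0) (hgf : ∀ x, g (f x) = 0)
    (A : AddSubgroup B) (hfA : ∀ a ∈ A, f a ∈ A) (hgA : ∀ a ∈ A, g a ∈ A)
    (hfin : A.index ≠ 0) :
    hIdx f g * hIdx (resEnd g A hgA) (resEnd f A hfA) =
      hIdx g f * hIdx (resEnd f A hfA) (resEnd g A hgA) := by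
  have : Finite (B ⧸ A) := by
    have : Nat.card (B ⧸ A) ≠ 0 := by rwa [← AddSubgroup.index_eq_card]
    exact Nat.finite_of_card_ne_zero this
  have hq1 : ∀ x, quotEnd f A hfA (quotEnd g A hgA x) = 0 := by
    intro x
    induction x using QuotientAddGroup.induction_on with
    | H b => simp [hfg]
  have hq2 : ∀ x, quotEnd g A hgA (quotEnd f A hfA x) = 0 := by
    intro x
    induction x using QuotientAddGroup.induction_on with
    | H b => simp [hgf]
  have hC := hIdx_eq_of_finite (quotEnd f A hfA) (quotEnd g A hgA) hq1 hq2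
  have hC0 : hIdx (quotEnd g A hgA) (quotEnd f A hfA) ≠ 0 := hIdx_ne_zero_of_finite _ _
  have key := (ExactPair.ofSubgroup f g A hfA hgA).hIdx_mul hfg hgf
  rw [hC] at key
  exact Nat.eq_of_mul_eq_mul_right (Nat.pos_of_ne_zero hC0) key

/-- Definedness passes from a stable subgroup of finite index to the whole group. -/
theorem hqDefined_of_finiteIndex (f g : B →+ B) (hfg : ∀ x, f (g x) = 0)
    (hgf : ∀ x, g (f x) = 0)
    (A : AddSubgroup B) (hfA : ∀ a ∈ A, f a ∈ A) (hgA : ∀ a ∈ A, g a ∈ A)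
    (hfin : A.index ≠ 0) (hA : HQDefined (resEnd f A hfA) (resEnd g A hgA)) :
    HQDefined f g := by
  have : Finite (B ⧸ A) := by
    have : Nat.card (B ⧸ A) ≠ 0 := by rwa [← AddSubgroup.index_eq_card]
    exact Nat.finite_of_card_ne_zero this
  exact (ExactPair.ofSubgroup f g A hfA hgA).defined_mid hfg hgf hA (hqDefined_of_finite _ _)

end Subgroup

section Units

variable {E : Type*} [AddCommGroup E] {S : Type*}

theorem map_pow_of_equivariant {Λ : Type*} [AddCommGroup Λ] (σΛ : AddMonoid.End Λ)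
    (σ : AddMonoid.End E) (φ : Λ →+ E) (hφ : ∀ m, φ (σΛ m) = σ (φ m)) (i : ℕ) (m : Λ) :
    φ ((σΛ ^ i) m) = (σ ^ i) (φ m) := by
  induction i generalizing m with
  | zero => rfl
  | succ i ih =>
    rw [pow_succ, pow_succ]
    show φ ((σΛ ^ i) (σΛ m)) = (σ ^ i) (σ (φ m))
    rw [ih, hφ]

theorem map_dOp_of_equivariant {Λ : Type*} [AddCommGroup Λ] (σΛ : AddMonoid.End Λ)
    (σ : AddMonoid.End E) (φ : Λ →+ E) (hφ : ∀ m, φ (σΛ m) = σ (φ m)) (m : Λ) :
    φ (dOp σΛ m) = dOp σ (φ m) := by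
  rw [dOp_apply, dOp_apply, map_sub, hφ]

theorem map_nOp_of_equivariant {Λ : Type*} [AddCommGroup Λ] (σΛ : AddMonoid.End Λ)
    (σ : AddMonoid.End E) (φ : Λ →+ E) (hφ : ∀ m, φ (σΛ m) = σ (φ m)) (n : ℕ) (m : Λ) :
    φ (nOp σΛ n m) = nOp σ n (φ m) := by
  rw [nOp_apply, nOp_apply, map_sum]
  exact Finset.sum_congr rfl fun i _ => map_pow_of_equivariant σΛ σ φ hφ i m

/-- On an infinite cyclic group, an endomorphism of odd order is the identity. -/
theorem eq_self_of_odd_order {K : Type*} [AddCommGroup K] (e : K ≃+ ℤ) (s : K →+ K) (n : ℕ)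
    (hodd : Odd n) (hs : ∀ x, (s^[n]) x = x) (x : K) : s x = x := by
  set a : K := e.symm 1 with ha
  set c : ℤ := e (s a) with hc
  have hgen : ∀ y : K, y = (e y) • a := by
    intro y
    apply e.injective
    rw [map_zsmul, ha, e.apply_symm_apply]
    simp
  have hsa : s a = c • a := hgen (s a)
  have hsy : ∀ y : K, s y = c • y := by
    intro y
    conv_lhs => rw [hgen y]
    rw [map_zsmul, hsa, smul_comm, ← hgen y]
  have hiter : ∀ (i : ℕ) (y : K), (s^[i]) y = (c ^ i) • y := by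
    intro i
    induction i with
    | zero => intro y; simp
    | succ i ih =>
      intro y
      rw [Function.iterate_succ_apply', ih, hsy, smul_smul, pow_succ, mul_comm]
  have h1 : (c ^ n) • a = a := by rw [← hiter, hs]
  have h2 : c ^ n = 1 := by
    have := congrArg e h1
    rw [map_zsmul, ha, e.apply_symm_apply] at this
    simpa using this
  have h3 : c = 1 := by
    have : c ^ n = 1 ^ n := by rw [h2, one_pow]
    exact hodd.pow_inj.mp this
  rw [hsy, h3, one_smul]

/-- **Abstract unit theorem for Herbrand quotients.** Let `σ` act on `E` with `σ ^ n = 1`,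
`n` odd, and let `φ : (S → ℤ) → E` be an equivariant homomorphism from a free permutation module
(for a freely acting permutation `τ` with `τ ^ n = 1`) such that `φ` has image of finite index
and infinite cyclic kernel. Then the Herbrand quotient of `E` is `1 / n`:
`n * [ker (1 - σ) : im N] = [ker N : im (1 - σ)]`, both indices being finite. -/
theorem units_index (σ : AddMonoid.End E) (n : ℕ) (hodd : Odd n) (hσ : σ ^ n = 1)
    (τ : Equiv.Perm S) (hτ : τ ^ n = 1) (hfree : ∀ s, ∀ i, 0 < i → i < n → (τ ^ i) s ≠ s)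
    (φ : (S → ℤ) →+ E) (hφ : ∀ m, φ ((permEnd τ : AddMonoid.End (S → ℤ)) m) = σ (φ m))
    (hfin : φ.range.index ≠ 0) (e : φ.ker ≃+ ℤ) :
    n * hIdx (dOp σ) (nOp σ n) = hIdx (nOp σ n) (dOp σ) ∧
      hIdx (dOp σ) (nOp σ n) ≠ 0 ∧ hIdx (nOp σ n) (dOp σ) ≠ 0 := by
  have hn : 0 < n := hodd.pos
  set σΛ : AddMonoid.End (S → ℤ) := permEnd τ with hσΛ
  have hσΛn : σΛ ^ n = 1 := permEnd_pow_eq_one τ n hτ
  -- basic vanishing
  have hDN : ∀ x, dOp σ (nOp σ n x) = 0 := dOp_nOp σ n hσ
  have hND : ∀ x, nOp σ n (dOp σ x) = 0 := nOp_dOp σ n hσ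
  have hDNΛ : ∀ x, dOp σΛ (nOp σΛ n x) = 0 := dOp_nOp σΛ n hσΛn
  have hNDΛ : ∀ x, nOp σΛ n (dOp σΛ x) = 0 := nOp_dOp σΛ n hσΛn
  -- stability
  have hKD : ∀ a ∈ φ.ker, dOp σΛ a ∈ φ.ker := by
    intro a ha
    rw [AddMonoidHom.mem_ker] at ha ⊢
    rw [map_dOp_of_equivariant σΛ σ φ hφ, ha, map_zero]
  have hKN : ∀ a ∈ φ.ker, nOp σΛ n a ∈ φ.ker := by
    intro a ha
    rw [AddMonoidHom.mem_ker] at ha ⊢
    rw [map_nOp_of_equivariant σΛ σ φ hφ, ha, map_zero]
  have hKσ : ∀ a ∈ φ.ker, σΛ a ∈ φ.ker := by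
    intro a ha
    rw [AddMonoidHom.mem_ker] at ha ⊢
    rw [hφ, ha, map_zero]
  have hUD : ∀ a ∈ φ.range, dOp σ a ∈ φ.range := by
    rintro _ ⟨m, rfl⟩
    exact ⟨dOp σΛ m, map_dOp_of_equivariant σΛ σ φ hφ m⟩
  have hUN : ∀ a ∈ φ.range, nOp σ n a ∈ φ.range := by
    rintro _ ⟨m, rfl⟩
    exact ⟨nOp σΛ n m, map_nOp_of_equivariant σΛ σ φ hφ n m⟩
  -- `σΛ` is the identity on the kernel
  have hfix : ∀ x : φ.ker, σΛ (x : S → ℤ) = x := by
    intro x
    have hpow : ∀ (i : ℕ) (y : φ.ker), (((resEnd σΛ φ.ker hKσ)^[i]) y : S → ℤ) =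
        (σΛ ^ i) (y : S → ℤ) := by
      intro i
      induction i with
      | zero => intro y; rfl
      | succ i ih =>
        intro y
        rw [Function.iterate_succ_apply, ih, pow_succ]
        rfl
    have hs : ∀ y : φ.ker, ((resEnd σΛ φ.ker hKσ)^[n]) y = y := by
      intro y
      apply Subtype.ext
      rw [hpow, hσΛn]
      rfl
    have := eq_self_of_odd_order e (resEnd σΛ φ.ker hKσ) n hodd hs x
    exact congrArg Subtype.val this
  -- indices of the kernel
  have hK1 : hIdx (resEnd (dOp σΛ) φ.ker hKD) (resEnd (nOp σΛ n) φ.ker hKN) = n := by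
    rw [hIdx_congr e _ _ (dOp (1 : AddMonoid.End ℤ)) (nOp (1 : AddMonoid.End ℤ) n), hIdx_dOp_int]
    · intro x
      have h0 : resEnd (dOp σΛ) φ.ker hKD x = 0 := by
        apply Subtype.ext
        rw [resEnd_coe, dOp_apply, hfix, sub_self]
        rfl
      rw [h0, map_zero, dOp_apply]
      simp
    · intro x
      have h0 : resEnd (nOp σΛ n) φ.ker hKN x = n • x := by
        apply Subtype.ext
        rw [resEnd_coe, nOp_apply]
        have hp : ∀ i : ℕ, (σΛ ^ i) (x : S → ℤ) = x := by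
          intro i
          induction i with
          | zero => rfl
          | succ i ih =>
            rw [pow_succ]
            show (σΛ ^ i) (σΛ (x : S → ℤ)) = x
            rw [hfix, ih]
        rw [Finset.sum_congr rfl (fun i _ => hp i)]
        simp
      rw [h0, map_nsmul, nOp_apply]
      simp
  have hK2 : hIdx (resEnd (nOp σΛ n) φ.ker hKN) (resEnd (dOp σΛ) φ.ker hKD) = 1 := by
    rw [hIdx_congr e _ _ (nOp (1 : AddMonoid.End ℤ) n) (dOp (1 : AddMonoid.End ℤ)),
      hIdx_nOp_int n hn.ne']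
    · intro x
      have h0 : resEnd (nOp σΛ n) φ.ker hKN x = n • x := by
        apply Subtype.ext
        rw [resEnd_coe, nOp_apply]
        have hp : ∀ i : ℕ, (σΛ ^ i) (x : S → ℤ) = x := by
          intro i
          induction i with
          | zero => rfl
          | succ i ih =>
            rw [pow_succ]
            show (σΛ ^ i) (σΛ (x : S → ℤ)) = x
            rw [hfix, ih]
        rw [Finset.sum_congr rfl (fun i _ => hp i)]
        simp
      rw [h0, map_nsmul, nOp_apply]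
      simp
    · intro x
      have h0 : resEnd (dOp σΛ) φ.ker hKD x = 0 := by
        apply Subtype.ext
        rw [resEnd_coe, dOp_apply, hfix, sub_self]
        rfl
      rw [h0, map_zero, dOp_apply]
      simp
  -- the exact sequence `0 → ker φ → (S → ℤ) → im φ → 0`
  let E1 : ExactPair (resEnd (dOp σΛ) φ.ker hKD) (resEnd (nOp σΛ n) φ.ker hKN)
      (dOp σΛ) (nOp σΛ n) (resEnd (dOp σ) φ.range hUD) (resEnd (nOp σ n) φ.range hUN) :=
    { ι := φ.ker.subtype
      π := φ.rangeRestrict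
      inj := Subtype.coe_injective
      surj := φ.rangeRestrict_surjective
      exact := by rw [AddSubgroup.range_subtype, AddMonoidHom.ker_rangeRestrict]
      ι_f := fun _ => rfl
      ι_g := fun _ => rfl
      π_f := fun m => Subtype.ext (map_dOp_of_equivariant σΛ σ φ hφ m)
      π_g := fun m => Subtype.ext (map_nOp_of_equivariant σΛ σ φ hφ n m) }
  have hΛ1 : hIdx (dOp σΛ) (nOp σΛ n) = 1 := hIdx_dOp_perm τ n hn hτ hfree
  have hΛ2 : hIdx (nOp σΛ n) (dOp σΛ) = 1 := hIdx_nOp_perm τ n hn hτ hfree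
  have hKdef : HQDefined (resEnd (dOp σΛ) φ.ker hKD) (resEnd (nOp σΛ n) φ.ker hKN) :=
    ⟨by rw [hK1]; exact hn.ne', by rw [hK2]; exact one_ne_zero⟩
  have hΛdef : HQDefined (dOp σΛ) (nOp σΛ n) :=
    ⟨by rw [hΛ1]; exact one_ne_zero, by rw [hΛ2]; exact one_ne_zero⟩
  have hUdef := E1.defined_quot hDNΛ hNDΛ hKdef hΛdef
  have hmul1 := E1.hIdx_mul hDNΛ hNDΛ
  rw [hΛ1, hΛ2, hK1, hK2] at hmul1
  -- pass to `E`
  have hmul2 := hIdx_of_finiteIndex (dOp σ) (nOp σ n) hDN hND φ.range hUD hUN hfin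
  have hEdef := hqDefined_of_finiteIndex (dOp σ) (nOp σ n) hDN hND φ.range hUD hUN hfin hUdef
  refine ⟨?_, hEdef.1, hEdef.2⟩
  have hU0 : 0 < hIdx (resEnd (dOp σ) φ.range hUD) (resEnd (nOp σ n) φ.range hUN) :=
    Nat.pos_of_ne_zero hUdef.1
  apply Nat.eq_of_mul_eq_mul_right hU0
  calc n * hIdx (dOp σ) (nOp σ n) * hIdx (resEnd (dOp σ) φ.range hUD) (resEnd (nOp σ n) φ.range hUN)
      = hIdx (dOp σ) (nOp σ n) *
          (1 * n * hIdx (resEnd (dOp σ) φ.range hUD) (resEnd (nOp σ n) φ.range hUN)) := by ring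
    _ = hIdx (dOp σ) (nOp σ n) *
          (1 * 1 * hIdx (resEnd (nOp σ n) φ.range hUN) (resEnd (dOp σ) φ.range hUD)) := by
        rw [hmul1]
    _ = hIdx (nOp σ n) (dOp σ) *
          hIdx (resEnd (dOp σ) φ.range hUD) (resEnd (nOp σ n) φ.range hUN) := by
        rw [one_mul, one_mul, hmul2]

end Units

end Fermat.Agent.CFT.H8
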