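import Fermat.Agent.CFT.HerbrandUnits

/-!
# Adapters for the conventions of the P-CFT second-inequality team

`D = s - 1`, `Nm = ∑ i < n, s ^ i` in `AddMonoid.End A`,
`h0 = Nm.range.relIndex D.ker`, `h1 = D.range.relIndex Nm.ker`.
-/

namespace Fermat.Agent.CFT.H8

open AddSubgroup Finset

variable {A : Type*} [AddCommGroup A]

/-- `D = s - 1` as an additive endomorphism. -/
def dOp' (s : AddMonoid.End A) : A →+ A := (s - 1 : AddMonoid.End A)

theorem dOp'_apply (s : AddMonoid.End A) (x : A) : dOp' s x = s x - x := rfl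

theorem ker_dOp'_eq (s : AddMonoid.End A) : (dOp' s).ker = (dOp s).ker := by
  ext x
  rw [AddMonoidHom.mem_ker, AddMonoidHom.mem_ker, dOp_apply, dOp'_apply,
    sub_eq_zero, sub_eq_zero, eq_comm]

theorem range_dOp'_eq (s : AddMonoid.End A) : (dOp' s).range = (dOp s).range := by
  ext x
  rw [AddMonoidHom.mem_range, AddMonoidHom.mem_range]
  constructor
  · rintro ⟨y, rfl⟩
    refine ⟨-y, ?_⟩
    rw [dOp_apply, dOp'_apply, map_neg]
    abel
  · rintro ⟨y, rfl⟩
    refine ⟨-y, ?_⟩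
    rw [dOp_apply, dOp'_apply, map_neg]
    abel

theorem h0_eq_hIdx (s : AddMonoid.End A) (n : ℕ) :
    (nOp s n).range.relIndex (dOp' s).ker = hIdx (dOp s) (nOp s n) := by
  rw [ker_dOp'_eq]
  rfl

theorem h1_eq_hIdx (s : AddMonoid.End A) (n : ℕ) :
    (dOp' s).range.relIndex (nOp s n).ker = hIdx (nOp s n) (dOp s) := by
  rw [range_dOp'_eq]
  rfl

/-- `units_index` in the conventions `D = s - 1` (`dOp' s`), `Nm = ∑ i < n, s ^ i` (`nOp s n`),
`h0 = Nm.range.relIndex D.ker`, `h1 = D.range.relIndex Nm.ker`:  `h0 ≠ 0 ∧ n * h0 = h1`. -/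
theorem units_index_h0_h1 {S : Type*} (s : AddMonoid.End A) (n : ℕ) (hodd : Odd n)
    (hs : s ^ n = 1)
    (τ : Equiv.Perm S) (hτ : τ ^ n = 1) (hfree : ∀ x, ∀ i, 0 < i → i < n → (τ ^ i) x ≠ x)
    (φ : (S → ℤ) →+ A) (hφ : ∀ m, φ ((permEnd τ : AddMonoid.End (S → ℤ)) m) = s (φ m))
    (hfin : φ.range.index ≠ 0) (e : φ.ker ≃+ ℤ) :
    (nOp s n).range.relIndex (dOp' s).ker ≠ 0 ∧
      n * (nOp s n).range.relIndex (dOp' s).ker = (dOp' s).range.relIndex (nOp s n).ker := by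
  rw [h0_eq_hIdx, h1_eq_hIdx]
  obtain ⟨h1, h2, _⟩ := units_index s n hodd hs τ hτ hfree φ hφ hfin e
  exact ⟨h2, h1⟩

/-- The shift permutation of `J × ZMod n`. -/
def shiftPerm (J : Type*) (n : ℕ) : Equiv.Perm (J × ZMod n) where
  toFun x := (x.1, x.2 + 1)
  invFun x := (x.1, x.2 - 1)
  left_inv x := by simp
  right_inv x := by simp

theorem shiftPerm_pow_apply (J : Type*) (n : ℕ) (i : ℕ) (x : J × ZMod n) :
    ((shiftPerm J n) ^ i) x = (x.1, x.2 + i) := by
  induction i generalizing x with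
  | zero => simp
  | succ i ih =>
    rw [pow_succ, Equiv.Perm.mul_apply, ih]
    show ((x.1, x.2 + 1 + (i : ZMod n)) : J × ZMod n) = (x.1, x.2 + ((i + 1 : ℕ) : ZMod n))
    push_cast
    congr 1
    ring

theorem shiftPerm_pow_eq_one (J : Type*) (n : ℕ) : (shiftPerm J n) ^ n = 1 := by
  ext x
  · rw [shiftPerm_pow_apply]
    rfl
  · rw [shiftPerm_pow_apply]
    simp

theorem shiftPerm_free (J : Type*) (n : ℕ) (x : J × ZMod n) (i : ℕ) (hi : 0 < i) (hin : i < n) :
    ((shiftPerm J n) ^ i) x ≠ x := by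
  rw [shiftPerm_pow_apply]
  intro h
  have h2 : x.2 + (i : ZMod n) = x.2 := congrArg Prod.snd h
  have h3 : (i : ZMod n) = 0 := by
    have := add_left_cancel (a := x.2) (b := (i : ZMod n)) (c := 0) (by rw [h2, add_zero])
    exact this
  rw [ZMod.natCast_eq_zero_iff] at h3
  exact absurd (Nat.le_of_dvd hi h3) (not_le.mpr hin)

end Fermat.Agent.CFT.H8
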